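import Mathlib.GroupTheory.OrderOfElement
import Mathlib.GroupTheory.SpecificGroups.Cyclic
import Mathlib.SetTheory.Cardinal.Finite
import Mathlib.Algebra.BigOperators.Group.Multiset.Basic
import Mathlib.Order.ConditionallyCompleteLattice.Basic

/-!
# Minimal product-one multisets and the Davenport constant

The Davenport constant of a finite abelian group is the largest size of a nonempty multiset with product one no
proper nonempty part of which has product one. It is at most the order of the group, with equality in the cyclic case.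
-/

set_option autoImplicit false
set_option linter.unusedSectionVars false

noncomputable section

open scoped Classical

namespace FA.Factorisation

variable {G : Type*} [CommGroup G]

/-- A minimal product-one multiset. -/
structure IsMinimalProdOne (s : Multiset G) : Prop where
  ne_zero : s ≠ 0
  prod_eq : s.prod = 1
  minimal : ∀ t ≤ s, t.prod = 1 → t = 0 ∨ t = s

/-- A part of an image is the image of a part. -/
theorem exists_le_map_eq {α β : Type*} (f : α → β) {s : Multiset α} {t : Multiset β} (h : t ≤ s.map f) :
    ∃ u ≤ s, u.map f = t := by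
  induction s using Multiset.induction generalizing t with
  | empty => exact ⟨0, le_rfl, (Multiset.map_zero f).trans (Multiset.le_zero.mp (by simpa using h)).symm⟩
  | cons a s ih =>
    rw [Multiset.map_cons] at h
    by_cases ha : f a ∈ t
    · obtain ⟨t', rfl⟩ := Multiset.exists_cons_of_mem ha
      obtain ⟨u, hu, rfl⟩ := ih ((Multiset.cons_le_cons_iff _).mp h)
      exact ⟨a ::ₘ u, Multiset.cons_le_cons a hu, Multiset.map_cons _ _ _⟩
    · obtain ⟨u, hu, rfl⟩ := ih ((Multiset.le_cons_of_notMem ha).mp h)
      exact ⟨u, hu.trans (Multiset.le_cons_self _ _), rfl⟩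

/-- The identity occurs in a minimal product-one multiset only alone. -/
theorem IsMinimalProdOne.eq_of_one_mem {s : Multiset G} (h : IsMinimalProdOne s) (h1 : (1 : G) ∈ s) : s = {1} := by
  rcases h.minimal {1} (Multiset.singleton_le.mpr h1) (Multiset.prod_singleton 1) with e | e
  · exact absurd e (Multiset.singleton_ne_zero 1)
  · exact e.symm

variable [Finite G]

theorem IsMinimalProdOne.card_le {s : Multiset G} (h : IsMinimalProdOne s) : Multiset.card s ≤ Nat.card G := by
  have := Fintype.ofFinite G
  induction s using Quotient.inductionOn with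
  | _ l =>
  by_contra hlt
  rw [not_le, Multiset.quot_mk_to_coe, Multiset.coe_card] at hlt
  obtain ⟨i, j, hij, he⟩ : ∃ i j : Fin l.length, i < j ∧ (l.take i).prod = (l.take j).prod := by
    obtain ⟨i, j, hne, he⟩ := Fintype.exists_ne_map_eq_of_card_lt (fun i : Fin l.length => (l.take i).prod)
      (by rw [Fintype.card_fin, ← Nat.card_eq_fintype_card]; exact hlt)
    rcases lt_or_gt_of_ne hne with h | h
    exacts [⟨i, j, h, he⟩, ⟨j, i, h, he.symm⟩]
  set t := (l.take j).drop i with ht
  have hsplit : l.take j = l.take i ++ t := by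
    conv_lhs => rw [← List.take_append_drop (i : ℕ) (l.take j), List.take_take, min_eq_left (Fin.le_def.mp hij.le)]
  have htp : t.prod = 1 := by
    rw [hsplit, List.prod_append] at he
    exact mul_left_cancel (he.symm.trans (mul_one _).symm)
  have hle : (t : Multiset G) ≤ (l : Multiset G) :=
    Multiset.coe_le.mpr ((List.drop_sublist _ _).trans (List.take_sublist _ _)).subperm
  have hlen : t.length = (j : ℕ) - i := by
    rw [ht, List.length_drop, List.length_take, min_eq_left j.2.le]
  rcases h.minimal _ hle (by rw [Multiset.prod_coe, htp]) with e | e <;> have e' := congrArg Multiset.card e <;>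
    rw [Multiset.coe_card, hlen] at e' <;> have := Fin.lt_def.mp hij <;> have := j.2
  · rw [Multiset.card_zero] at e'
    omega
  · rw [Multiset.quot_mk_to_coe, Multiset.coe_card] at e'
    omega

variable (G) in
/-- The Davenport constant. -/
def davenport : ℕ := sSup {n | ∃ s : Multiset G, IsMinimalProdOne s ∧ Multiset.card s = n}

theorem isMinimalProdOne_one : IsMinimalProdOne ({1} : Multiset G) where
  ne_zero := Multiset.singleton_ne_zero 1
  prod_eq := Multiset.prod_singleton 1
  minimal _ ht _ := Multiset.le_singleton.mp ht

theorem bddAbove_lengths : BddAbove {n | ∃ s : Multiset G, IsMinimalProdOne s ∧ Multiset.card s = n} :=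
  ⟨Nat.card G, fun _ ⟨_, hs, he⟩ => he ▸ hs.card_le⟩

theorem card_le_davenport {s : Multiset G} (h : IsMinimalProdOne s) : Multiset.card s ≤ davenport G :=
  le_csSup bddAbove_lengths ⟨s, h, rfl⟩

variable (G) in
theorem exists_card_eq_davenport : ∃ s : Multiset G, IsMinimalProdOne s ∧ Multiset.card s = davenport G :=
  Nat.sSup_mem (s := {n | ∃ s : Multiset G, IsMinimalProdOne s ∧ Multiset.card s = n})
    ⟨_, {1}, isMinimalProdOne_one, rfl⟩ bddAbove_lengths

theorem davenport_le_card : davenport G ≤ Nat.card G := by
  obtain ⟨s, hs, he⟩ := exists_card_eq_davenport G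
  exact he ▸ hs.card_le

theorem isMinimalProdOne_replicate (g : G) : IsMinimalProdOne (Multiset.replicate (orderOf g) g) where
  ne_zero e := by
    have := congrArg Multiset.card e
    rw [Multiset.card_replicate, Multiset.card_zero] at this
    exact (orderOf_pos g).ne' this
  prod_eq := by rw [Multiset.prod_replicate, pow_orderOf_eq_one]
  minimal t ht h1 := by
    obtain ⟨n, hn, rfl⟩ := Multiset.le_replicate_iff.mp ht
    rw [Multiset.prod_replicate, ← orderOf_dvd_iff_pow_eq_one] at h1
    rcases Nat.eq_zero_or_pos n with rfl | hpos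
    · exact Or.inl (Multiset.replicate_zero g)
    · exact Or.inr (by rw [le_antisymm hn (Nat.le_of_dvd hpos h1)])

theorem davenport_eq_card [IsCyclic G] : davenport G = Nat.card G := by
  obtain ⟨g, hg⟩ := IsCyclic.exists_generator (α := G)
  refine le_antisymm davenport_le_card ?_
  rw [← orderOf_eq_card_of_forall_mem_zpowers hg, ← Multiset.card_replicate (orderOf g) g]
  exact card_le_davenport (isMinimalProdOne_replicate g)

theorem isMinimalProdOne_pair {g : G} (hg : g ≠ 1) : IsMinimalProdOne (g ::ₘ g⁻¹ ::ₘ 0) where
  ne_zero := Multiset.cons_ne_zero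
  prod_eq := by simp
  minimal t ht h1 := by
    rcases (show Multiset.card t = 0 ∨ Multiset.card t = 1 ∨ 2 ≤ Multiset.card t by omega) with h | h | h
    · exact Or.inl (Multiset.card_eq_zero.mp h)
    · obtain ⟨a, rfl⟩ := Multiset.card_eq_one.mp h
      rw [Multiset.prod_singleton] at h1
      subst h1
      have := Multiset.mem_of_le ht (Multiset.mem_singleton_self 1)
      simp only [Multiset.mem_cons, Multiset.notMem_zero, or_false] at this
      rcases this with e | e
      exacts [absurd e.symm hg, absurd (inv_eq_one.mp e.symm) hg]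
    · exact Or.inr (Multiset.eq_of_le_of_card_le ht (by simpa using h))

theorem two_le_davenport (h : 2 ≤ Nat.card G) : 2 ≤ davenport G := by
  have : Nontrivial G := Finite.one_lt_card_iff_nontrivial.mp h
  obtain ⟨g, hg⟩ := exists_ne (1 : G)
  simpa using card_le_davenport (isMinimalProdOne_pair hg)

theorem three_le_davenport (h : 3 ≤ Nat.card G) : 3 ≤ davenport G := by
  have := Fintype.ofFinite G
  rw [Nat.card_eq_fintype_card] at h
  by_cases hex : ∃ g : G, 3 ≤ orderOf g
  · obtain ⟨g, hg⟩ := hex
    exact hg.trans (by simpa using card_le_davenport (isMinimalProdOne_replicate g))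
  simp only [not_exists, not_le] at hex
  have hsq : ∀ g : G, g * g = 1 := fun g => by
    have h1 := pow_orderOf_eq_one g
    rcases (show orderOf g = 1 ∨ orderOf g = 2 by have := orderOf_pos g; have := hex g; omega) with e | e <;>
      rw [e] at h1
    · rw [pow_one] at h1
      rw [h1, one_mul]
    · rwa [pow_two] at h1
  obtain ⟨a, b, ha, hb, hab⟩ : ∃ a b : G, a ≠ 1 ∧ b ≠ 1 ∧ a ≠ b := by
    obtain ⟨a, b, ha, hb, hab⟩ := Finset.one_lt_card_iff.mp (show 1 < (Finset.univ.erase (1 : G)).card by
      rw [Finset.card_erase_of_mem (Finset.mem_univ _), Finset.card_univ]; omega)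
    exact ⟨a, b, (Finset.mem_erase.mp ha).1, (Finset.mem_erase.mp hb).1, hab⟩
  have hab1 : a * b ≠ 1 := fun e => hab (mul_left_cancel (e.trans (hsq a).symm)).symm
  refine (show 3 = Multiset.card (a ::ₘ b ::ₘ (a * b) ::ₘ 0) by simp).le.trans
    (card_le_davenport ⟨Multiset.cons_ne_zero, ?_, fun t ht h1 => ?_⟩)
  · simp only [Multiset.prod_cons, Multiset.prod_zero, mul_one]
    rw [← mul_assoc, hsq]
  obtain ⟨u, hu⟩ := Multiset.le_iff_exists_add.mp ht
  have hu1 : u.prod = 1 := by
    have := congrArg Multiset.prod hu
    rw [Multiset.prod_add, h1, one_mul] at this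
    rw [← this]
    simp only [Multiset.prod_cons, Multiset.prod_zero, mul_one]
    rw [← mul_assoc, hsq]
  have hone : ∀ v : Multiset G, v.prod = 1 → v ≤ a ::ₘ b ::ₘ (a * b) ::ₘ 0 → Multiset.card v ≠ 1 := by
    intro v hv hle hcard
    obtain ⟨c, rfl⟩ := Multiset.card_eq_one.mp hcard
    rw [Multiset.prod_singleton] at hv
    subst hv
    have := Multiset.mem_of_le hle (Multiset.mem_singleton_self 1)
    simp only [Multiset.mem_cons, Multiset.notMem_zero, or_false] at this
    rcases this with e | e | e
    exacts [ha e.symm, hb e.symm, hab1 e.symm]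
  have hc := congrArg Multiset.card hu
  rw [Multiset.card_add, Multiset.card_cons, Multiset.card_cons, Multiset.card_cons, Multiset.card_zero] at hc
  have := hone t h1 ht
  have := hone u hu1 (hu ▸ Multiset.le_add_left u t)
  rcases (show Multiset.card t = 0 ∨ Multiset.card t = 3 by omega) with e | e
  · exact Or.inl (Multiset.card_eq_zero.mp e)
  · exact Or.inr (Multiset.eq_of_le_of_card_le ht (by simp [e]))

end FA.Factorisation
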