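import Fermat.Agent.Factorisation.Davenport
import Mathlib.RingTheory.ClassGroup.Basic
import Mathlib.RingTheory.DedekindDomain.Ideal.Lemmas

/-!
# The dictionary between irreducibles and class multisets

A nonzero element of a Dedekind domain is irreducible exactly when the classes of the prime factors of its ideal form
a minimal product-one multiset. If every class contains a prime, every product-one multiset occurs.
-/

set_option autoImplicit false
set_option linter.unusedSectionVars false

noncomputable section

open UniqueFactorizationMonoid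
open scoped Classical nonZeroDivisors

namespace FA.Factorisation

variable {R : Type*} [CommRing R] [IsDedekindDomain R]

/-- The class of an ideal, `1` for the zero ideal. -/
def idealClass (I : Ideal R) : ClassGroup R :=
  if h : I ∈ (Ideal R)⁰ then ClassGroup.mk0 ⟨I, h⟩ else 1

/-- The classes of the prime factors of `a`, with multiplicity. -/
def classes (a : R) : Multiset (ClassGroup R) := (normalizedFactors (Ideal.span {a})).map idealClass

theorem span_ne_bot {a : R} (ha : a ≠ 0) : (Ideal.span {a} : Ideal R) ≠ ⊥ := by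
  simpa [Ideal.span_singleton_eq_bot] using ha

theorem idealClass_mul {I J : Ideal R} (hI : I ≠ ⊥) (hJ : J ≠ ⊥) :
    idealClass (I * J) = idealClass I * idealClass J := by
  have hI' : I ∈ (Ideal R)⁰ := mem_nonZeroDivisors_of_ne_zero hI
  have hJ' : J ∈ (Ideal R)⁰ := mem_nonZeroDivisors_of_ne_zero hJ
  rw [idealClass, idealClass, idealClass, dif_pos hI', dif_pos hJ', dif_pos (mul_mem hI' hJ'), ← map_mul]
  rfl

theorem idealClass_one : idealClass (1 : Ideal R) = 1 := by
  rw [idealClass, dif_pos (one_mem _)]
  exact map_one _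

theorem idealClass_multiset_prod {s : Multiset (Ideal R)} (h : ∀ P ∈ s, P ≠ ⊥) :
    idealClass s.prod = (s.map idealClass).prod := by
  induction s using Multiset.induction with
  | empty => rw [Multiset.prod_zero, Multiset.map_zero, Multiset.prod_zero, idealClass_one]
  | cons P s ih =>
    have hs : ∀ Q ∈ s, Q ≠ ⊥ := fun Q hQ => h Q (Multiset.mem_cons_of_mem hQ)
    rw [Multiset.map_cons, Multiset.prod_cons, Multiset.prod_cons,
      idealClass_mul (h P (Multiset.mem_cons_self _ _)) (fun e => Multiset.prod_ne_zero (fun h0 => hs _ h0 rfl) e),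
      ih hs]

theorem idealClass_eq_one_iff {I : Ideal R} (hI : I ≠ ⊥) : idealClass I = 1 ↔ ∃ a, I = Ideal.span {a} := by
  rw [idealClass, dif_pos (mem_nonZeroDivisors_of_ne_zero hI), ClassGroup.mk0_eq_one_iff]
  exact ⟨fun h => ⟨_, (Ideal.span_singleton_generator I).symm⟩, fun ⟨a, ha⟩ => ⟨⟨a, ha⟩⟩⟩

theorem classes_prod {a : R} (ha : a ≠ 0) : (classes a).prod = 1 := by
  rw [classes, ← idealClass_multiset_prod fun P hP => (prime_of_normalized_factor P hP).ne_zero,
    Ideal.prod_normalizedFactors_eq_self (span_ne_bot ha), idealClass_eq_one_iff (span_ne_bot ha)]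
  exact ⟨a, rfl⟩

theorem classes_mul {a b : R} (ha : a ≠ 0) (hb : b ≠ 0) : classes (a * b) = classes a + classes b := by
  rw [classes, classes, classes, ← Ideal.span_singleton_mul_span_singleton,
    normalizedFactors_mul (span_ne_bot ha) (span_ne_bot hb), Multiset.map_add]

theorem classes_eq_zero_iff {a : R} (ha : a ≠ 0) : classes a = 0 ↔ IsUnit a := by
  rw [classes, Multiset.map_eq_zero, ← Ideal.span_singleton_eq_top]
  constructor
  · intro h
    rw [← Ideal.prod_normalizedFactors_eq_self (span_ne_bot ha), h, Multiset.prod_zero, Ideal.one_eq_top]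
  · intro h
    rw [h, ← Ideal.one_eq_top, normalizedFactors_one]

theorem classes_associated {a b : R} (h : Associated a b) : classes a = classes b := by
  rw [classes, classes, Ideal.span_singleton_eq_span_singleton.mpr h]

/-- **The dictionary.** -/
theorem irreducible_iff_classes {a : R} (ha : a ≠ 0) : Irreducible a ↔ IsMinimalProdOne (classes a) := by
  constructor
  · intro h
    refine ⟨fun e => h.not_isUnit ((classes_eq_zero_iff ha).mp e), classes_prod ha, fun t ht h1 => ?_⟩
    obtain ⟨T, hT, rfl⟩ := exists_le_map_eq _ ht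
    obtain ⟨U, hU⟩ := Multiset.le_iff_exists_add.mp hT
    have hne : ∀ P ∈ normalizedFactors (Ideal.span {a}), P ≠ ⊥ := fun P hP =>
      (prime_of_normalized_factor P hP).ne_zero
    have hTne : ∀ P ∈ T, P ≠ ⊥ := fun P hP => hne P (Multiset.mem_of_le hT hP)
    have hUne : ∀ P ∈ U, P ≠ ⊥ := fun P hP => hne P (hU ▸ Multiset.mem_add.mpr (Or.inr hP))
    have hT0 : T.prod ≠ ⊥ := fun e => Multiset.prod_ne_zero (fun h0 => hTne _ h0 rfl) e
    have hU0 : U.prod ≠ ⊥ := fun e => Multiset.prod_ne_zero (fun h0 => hUne _ h0 rfl) e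
    have hU1 : (U.map idealClass).prod = 1 := by
      have := classes_prod ha
      rw [classes, hU, Multiset.map_add, Multiset.prod_add, h1, one_mul] at this
      exact this
    obtain ⟨x, hx⟩ := (idealClass_eq_one_iff hT0).mp (by rw [idealClass_multiset_prod hTne, h1])
    obtain ⟨y, hy⟩ := (idealClass_eq_one_iff hU0).mp (by rw [idealClass_multiset_prod hUne, hU1])
    have hass : Associated (x * y) a := by
      rw [← Ideal.span_singleton_eq_span_singleton, ← Ideal.span_singleton_mul_span_singleton, ← hx, ← hy,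
        ← Multiset.prod_add, ← hU, Ideal.prod_normalizedFactors_eq_self (span_ne_bot ha)]
    have hxy := hass.symm.irreducible h
    have unit_imp : ∀ {V : Multiset (Ideal R)} {z : R}, (∀ P ∈ V, P ∈ normalizedFactors (Ideal.span {a})) →
        V.prod = Ideal.span {z} → IsUnit z → V = 0 := fun {V z} hV hz hu => by
      refine Multiset.eq_zero_of_forall_notMem fun P hP => ?_
      have hdvd : P ∣ V.prod := Multiset.dvd_prod hP
      rw [hz, Ideal.span_singleton_eq_top.mpr hu, ← Ideal.one_eq_top] at hdvd
      exact (prime_of_normalized_factor P (hV P hP)).not_dvd_one hdvd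
    rcases hxy.isUnit_or_isUnit rfl with hu | hu
    · exact Or.inl (by rw [unit_imp (fun P hP => Multiset.mem_of_le hT hP) hx hu, Multiset.map_zero])
    · refine Or.inr ?_
      rw [classes, hU, unit_imp (fun P hP => hU ▸ Multiset.mem_add.mpr (Or.inr hP)) hy hu, add_zero]
  · intro h
    refine irreducible_iff.mpr ⟨fun hu => h.ne_zero ((classes_eq_zero_iff ha).mpr hu), fun x y hxy => ?_⟩
    subst hxy
    obtain ⟨hx, hy⟩ : x ≠ 0 ∧ y ≠ 0 := ⟨left_ne_zero_of_mul ha, right_ne_zero_of_mul ha⟩
    rw [classes_mul hx hy] at h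
    rcases h.minimal (classes x) (Multiset.le_add_right _ _) (classes_prod hx) with e | e
    · exact Or.inl ((classes_eq_zero_iff hx).mp e)
    · exact Or.inr ((classes_eq_zero_iff hy).mp (add_left_cancel (a := classes x) (by rw [add_zero, ← e])))

/-- A product-one choice of primes is a principal ideal. -/
theorem exists_span_eq_prod {P : ClassGroup R → Ideal R} (hP : ∀ g, (P g).IsPrime ∧ P g ≠ ⊥ ∧ idealClass (P g) = g)
    {s : Multiset (ClassGroup R)} (hs : s.prod = 1) :
    ∃ a : R, a ≠ 0 ∧ Ideal.span {a} = (s.map P).prod ∧ classes a = s := by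
  have hne : ∀ Q ∈ s.map P, Q ≠ ⊥ := fun Q hQ => by
    obtain ⟨g, -, rfl⟩ := Multiset.mem_map.mp hQ
    exact (hP g).2.1
  have hclass : (s.map P).map idealClass = s := by
    rw [Multiset.map_map]
    conv_rhs => rw [← Multiset.map_id s]
    exact Multiset.map_congr rfl fun g _ => (hP g).2.2
  have h0 : (s.map P).prod ≠ ⊥ := fun e => Multiset.prod_ne_zero (fun h0 => hne _ h0 rfl) e
  obtain ⟨a, ha⟩ := (idealClass_eq_one_iff h0).mp (by rw [idealClass_multiset_prod hne, hclass, hs])
  refine ⟨a, fun e => h0 ?_, ha.symm, ?_⟩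
  · rw [ha, e, Ideal.span_singleton_eq_bot]
  · rw [classes, ← ha, normalizedFactors_prod_of_prime fun Q hQ => ?_, hclass]
    obtain ⟨g, -, rfl⟩ := Multiset.mem_map.mp hQ
    exact (Ideal.prime_iff_isPrime (hP g).2.1).mpr (hP g).1

end FA.Factorisation
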