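import Fermat.Agent.Factorisation.Dictionary

/-!
# Lengths of factorisations

Counting a class `1` twice, every atom weighs at least `2` and at most the Davenport constant, and the weight is
additive. Primes in the classes of an extremal multiset and in their inverses give the lengths `2` and `D`.
-/

set_option autoImplicit false
set_option linter.unusedSectionVars false

noncomputable section

open UniqueFactorizationMonoid
open scoped Classical nonZeroDivisors

namespace FA.Factorisation

variable {R : Type*} [CommRing R] [IsDedekindDomain R]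

/-- A factorisation into irreducibles. -/
def IsFactorisation (a : R) (s : Multiset R) : Prop := (∀ x ∈ s, Irreducible x) ∧ Associated s.prod a

theorem classes_multiset_prod {s : Multiset R} (h : ∀ x ∈ s, x ≠ 0) : classes s.prod = (s.map classes).sum := by
  induction s using Multiset.induction with
  | empty =>
    rw [Multiset.prod_zero, Multiset.map_zero, Multiset.sum_zero, classes_eq_zero_iff one_ne_zero]
    exact isUnit_one
  | cons x s ih =>
    have hs : ∀ y ∈ s, y ≠ 0 := fun y hy => h y (Multiset.mem_cons_of_mem hy)
    rw [Multiset.prod_cons, Multiset.map_cons, Multiset.sum_cons,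
      classes_mul (h x (Multiset.mem_cons_self _ _)) (Multiset.prod_ne_zero fun h0 => hs _ h0 rfl), ih hs]

/-- The weight of a class multiset: its size, the class `1` counted twice. -/
def weight : Multiset (ClassGroup R) →+ ℕ :=
  Multiset.cardHom + Multiset.countAddMonoidHom (1 : ClassGroup R)

theorem weight_apply (s : Multiset (ClassGroup R)) : weight s = Multiset.card s + s.count 1 := rfl

theorem two_le_weight {s : Multiset (ClassGroup R)} (h : IsMinimalProdOne s) : 2 ≤ weight s := by
  rw [weight_apply]
  rcases (show Multiset.card s = 0 ∨ Multiset.card s = 1 ∨ 2 ≤ Multiset.card s by omega) with e | e | e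
  · exact absurd (Multiset.card_eq_zero.mp e) h.ne_zero
  · obtain ⟨g, rfl⟩ := Multiset.card_eq_one.mp e
    have h1 := h.prod_eq
    rw [Multiset.prod_singleton] at h1
    subst h1
    simp
  · omega

theorem weight_le [Finite (ClassGroup R)] {s : Multiset (ClassGroup R)} (h : IsMinimalProdOne s) :
    weight s ≤ max (davenport (ClassGroup R)) 2 := by
  rw [weight_apply]
  by_cases h1 : (1 : ClassGroup R) ∈ s
  · rw [h.eq_of_one_mem h1]
    simp
  · rw [Multiset.count_eq_zero_of_notMem h1, add_zero]
    exact (card_le_davenport h).trans (le_max_left _ _)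

theorem weight_classes_bounds [Finite (ClassGroup R)] {a : R} {s : Multiset R} (h : IsFactorisation a s) :
    2 * Multiset.card s ≤ weight (classes a) ∧
      weight (classes a) ≤ max (davenport (ClassGroup R)) 2 * Multiset.card s := by
  obtain ⟨hirr, hass⟩ := h
  have hne : ∀ x ∈ s, x ≠ 0 := fun x hx => (hirr x hx).ne_zero
  have hatom : ∀ x ∈ s, IsMinimalProdOne (classes x) := fun x hx => (irreducible_iff_classes (hne x hx)).mp (hirr x hx)
  rw [← classes_associated hass, classes_multiset_prod hne, map_multiset_sum, Multiset.map_map]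
  constructor
  · have := Multiset.card_nsmul_le_sum (s := s.map (weight ∘ classes)) (a := 2) fun n hn => by
      obtain ⟨x, hx, rfl⟩ := Multiset.mem_map.mp hn
      exact two_le_weight (hatom x hx)
    rwa [Multiset.card_map, smul_eq_mul, mul_comm] at this
  · have := Multiset.sum_le_card_nsmul (s.map (weight ∘ classes)) (max (davenport (ClassGroup R)) 2) fun n hn => by
      obtain ⟨x, hx, rfl⟩ := Multiset.mem_map.mp hn
      exact weight_le (hatom x hx)
    rwa [Multiset.card_map, smul_eq_mul, mul_comm] at this

/-- **Valenza's bound.** -/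
theorem length_le [Finite (ClassGroup R)] {a : R} {s t : Multiset R} (hs : IsFactorisation a s)
    (ht : IsFactorisation a t) : 2 * Multiset.card s ≤ max (davenport (ClassGroup R)) 2 * Multiset.card t :=
  (weight_classes_bounds hs).1.trans (weight_classes_bounds ht).2

/-- Powers of factorisations. -/
theorem IsFactorisation.nsmul {a : R} {s : Multiset R} (h : IsFactorisation a s) (n : ℕ) :
    IsFactorisation (a ^ n) (n • s) := by
  refine ⟨fun x hx => h.1 x (Multiset.mem_of_mem_nsmul hx), ?_⟩
  rw [Multiset.prod_nsmul]
  exact h.2.pow_pow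

variable [Finite (ClassGroup R)]

/-- **Lengths `2` and `D` occur for one element.** -/
theorem exists_lengths (hP : ∀ g : ClassGroup R, ∃ P : Ideal R, P.IsPrime ∧ P ≠ ⊥ ∧ idealClass P = g)
    (hh : 2 ≤ Nat.card (ClassGroup R)) :
    ∃ (a : R) (s t : Multiset R), a ≠ 0 ∧ IsFactorisation a s ∧ IsFactorisation a t ∧ Multiset.card s = 2 ∧
      Multiset.card t = davenport (ClassGroup R) := by
  choose P hP' using hP
  obtain ⟨g, hg, hgc⟩ := exists_card_eq_davenport (ClassGroup R)
  have hD := two_le_davenport hh
  have h1 : (1 : ClassGroup R) ∉ g := fun h => by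
    rw [hg.eq_of_one_mem h, Multiset.card_singleton] at hgc
    omega
  have hg' : IsMinimalProdOne (g.map fun x => x⁻¹) := by
    refine ⟨by simpa using hg.ne_zero, by rw [Multiset.prod_map_inv', hg.prod_eq, inv_one], fun t ht ht1 => ?_⟩
    obtain ⟨u, hu, rfl⟩ := exists_le_map_eq _ ht
    rw [Multiset.prod_map_inv', inv_eq_one] at ht1
    rcases hg.minimal u hu ht1 with e | e
    · exact Or.inl (by rw [e, Multiset.map_zero])
    · exact Or.inr (by rw [e])
  obtain ⟨x, hx0, hxs, hxc⟩ := exists_span_eq_prod hP' hg.prod_eq
  obtain ⟨y, hy0, hys, hyc⟩ := exists_span_eq_prod hP' hg'.prod_eq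
  have hpair : ∀ u ∈ g, ∃ z : R, Irreducible z ∧ Ideal.span {z} = P u * P u⁻¹ := fun u hu => by
    have hu1 : u ≠ 1 := fun e => h1 (e ▸ hu)
    obtain ⟨z, hz0, hzs, hzc⟩ := exists_span_eq_prod hP' (isMinimalProdOne_pair hu1).prod_eq
    exact ⟨z, (irreducible_iff_classes hz0).mpr (hzc ▸ isMinimalProdOne_pair hu1), by simpa using hzs⟩
  choose! c hc using hpair
  refine ⟨x * y, x ::ₘ y ::ₘ 0, g.map c, mul_ne_zero hx0 hy0, ⟨?_, by simp⟩, ⟨?_, ?_⟩, by simp, by simp [hgc]⟩
  · intro z hz
    simp only [Multiset.mem_cons, Multiset.notMem_zero, or_false] at hz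
    rcases hz with rfl | rfl
    exacts [(irreducible_iff_classes hx0).mpr (hxc ▸ hg), (irreducible_iff_classes hy0).mpr (hyc ▸ hg')]
  · intro z hz
    obtain ⟨u, hu, rfl⟩ := Multiset.mem_map.mp hz
    exact (hc u hu).1
  · rw [← Ideal.span_singleton_eq_span_singleton, ← Ideal.span_singleton_mul_span_singleton, hxs, hys,
      Multiset.map_map, ← Multiset.prod_map_mul]
    have hspan : ∀ s : Multiset R, (Ideal.span {s.prod} : Ideal R) = (s.map fun z => Ideal.span {z}).prod := fun s => by
      induction s using Multiset.induction with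
      | empty => simp
      | cons z s ih => rw [Multiset.prod_cons, Multiset.map_cons, Multiset.prod_cons,
          ← Ideal.span_singleton_mul_span_singleton, ih]
    rw [hspan, Multiset.map_map]
    exact congrArg Multiset.prod (Multiset.map_congr rfl fun u hu => (hc u hu).2)

/-- **Carlitz's theorem.** -/
theorem carlitz_iff (hP : ∀ g : ClassGroup R, ∃ P : Ideal R, P.IsPrime ∧ P ≠ ⊥ ∧ idealClass P = g) :
    (∀ (a : R) (s t : Multiset R), a ≠ 0 → IsFactorisation a s → IsFactorisation a t →
      Multiset.card s = Multiset.card t) ↔ Nat.card (ClassGroup R) ≤ 2 := by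
  constructor
  · intro h
    by_contra h3
    obtain ⟨a, s, t, ha, hs, ht, hs2, htD⟩ := exists_lengths hP (by omega)
    have := h a s t ha hs ht
    have := three_le_davenport (G := ClassGroup R) (by omega)
    omega
  · intro h a s t _ hs ht
    have hmax : max (davenport (ClassGroup R)) 2 = 2 := max_eq_right (davenport_le_card.trans h)
    have h1 := length_le hs ht
    have h2 := length_le ht hs
    rw [hmax] at h1 h2
    omega

end FA.Factorisation
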